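import Fermat.Agent.S43.Ctrl.Phi.Chart
import Fermat.Agent.S43.Ctrl.KerAbs

/-!
# S43 / CTRL / PHI, file `Ker`: Kummer classes, and the concrete form of the kernel theorem   (helper37)

* `phi_kummer`, `mk_phi` : `phi D N` preserves the Kummer functions, and induces `σ` on the classes;
* `ker_conc` : `S : Setup A M q`, `M` neat, `σ` a Frobenius element, `f` a Kummer function over `K0`, unit at the `W i`, `n`-th power modulo
  each `W i`.  Then `Phi2 f = a * Ψ ^ n * f ^ (q * q)`;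
* `deep_conc` : `σ • σ • [f] = (q * q) • [f]`.
-/

set_option autoImplicit false
set_option linter.unusedSectionVars false

noncomputable section

namespace Fermat.Agent.S43.Ctrl.Phi

open AlgebraicCurve ModularCurve Fermat.Agent.S24 Fermat.Agent.GAL Fermat.Agent.GAL.Gauss
  Fermat.Agent.GAL.Desc Fermat.Agent.DR.Conc Fermat.Agent.S36.StepA Fermat.Agent.S36R
  Fermat.Agent.S36R.NormC Fermat.Agent.S36R.Bridge

variable {A : ValuationSubring Kbar} {q : ℕ} [NeZero q] {σ : Kbar ≃ₐ[ℚ] Kbar} (D : Dec A q σ)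

theorem bc0_phi_smul (N : ℕ) (z : FF (K0 A) N) :
    bc0 A N (phi D N z) = arithmeticGalois (modularFunctionFieldFull N) σ • bc0 A N z := by
  apply Subtype.ext
  rw [coe_arithmeticGalois_smul, coe_bc0_phi]

theorem map_bc0_phi (N : ℕ) (f : (FF (K0 A) N)ˣ) :
    Units.map (bc0 A N : FF (K0 A) N →* FN N) (Units.map (phi D N : FF (K0 A) N →* FF (K0 A) N) f) =
      semilinearUnits (arithmeticGalois (modularFunctionFieldFull N) σ)
        (Units.map (bc0 A N : FF (K0 A) N →* FN N) f) :=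
  Units.ext (bc0_phi_smul D N f)

/-- `phi` preserves the Kummer functions. -/
theorem phi_kummer (N n : ℕ) (f : (FF (K0 A) N)ˣ)
    (hf : Units.map (bc0 A N : FF (K0 A) N →* FN N) f ∈ kummerUnits Kbar (FN N) n) :
    Units.map (bc0 A N : FF (K0 A) N →* FN N)
      (Units.map (phi D N : FF (K0 A) N →* FF (K0 A) N) f) ∈ kummerUnits Kbar (FN N) n := by
  rw [map_bc0_phi]
  exact semilinearUnits_mem _ _ hf

/-- `phi` induces `σ` on the classes. -/
theorem mk_phi (N n : ℕ) (f : (FF (K0 A) N)ˣ)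
    (hf : Units.map (bc0 A N : FF (K0 A) N →* FN N) f ∈ kummerUnits Kbar (FN N) n) :
    (KV.mk ⟨_, phi_kummer D N n f hf⟩ : KV Kbar (FN N) n) = σ • KV.mk ⟨_, hf⟩ := by
  rw [KV.galois_smul_def, KV.semilinear_smul_mk]
  congr 1

variable {M : ℕ} [NeZero M] (S : Setup A M q)

/-- **The kernel theorem, concrete form** (function level). -/
theorem ker_conc_aux (hneat : 4 ∣ M ∨ 9 ∣ M) (hσ : A.IsFrobeniusAt σ q) {n : ℕ} (hn : 0 < n)
    (hqn : n.Coprime q) (f : S.F)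
    (hord : ∀ P : Place (K0 A) S.F, (n : ℤ) ∣ P.ord (f : S.F))
    (hord2 : ∀ P : Place (K0 A) S.F, (n : ℤ) ∣ P.ord (Phi2 D (M * q * q) (f : S.F)))
    (hu : ∀ i, IsU (S.W i) (f : S.F)) (g : Fin 3 → S.F) (hg : ∀ i, Cg (S.W i) (g i ^ n) (f : S.F)) :
    ∃ (a : K0 A) (Ψ : S.F), a ≠ 0 ∧ Ψ ≠ 0 ∧
      Phi2 D (M * q * q) (f : S.F) = algebraMap (K0 A) S.F a * Ψ ^ n * (f : S.F) ^ (q * q) := by
  have h := deliver_of_rest S hneat (rest S hneat)
  have hqn' : ¬ q ∣ n := fun h' =>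
    S.hq.one_lt.ne' (Nat.eq_one_of_dvd_coprimes hqn h' dvd_rfl)
  have : IsNoetherianRing (O0 A) := by
    have := K0L.isDiscreteValuationRing_OI A S.hq S.hA
    infer_instance
  exact ker_main (D := S.lvl) S.hq hqn hn (isUnit_natCast_O0 A S.hq S.hA hqn') h.good
    (jF_ne_zero (K0 A) (M * q * q)) h.chart₀ h.chart₁ h.triple h.p₀ h.p₁
    (fun z hz => shift_j hz) (fun z hz => shift_j_inv hz)
    (fun z h0 h1 => exists_const_of_mem_RR_inter (algebraMap (K0 A) Kbar) h0 h1)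
    (exists_q_pow_mul_mem A S.hq S.hA)
    (Phi2 D (M * q * q)) (q * q) (comap_W_Phi2 S D) (fun r hr => Phi2_mem_RR D _ hr)
    (fun 𝔫 _ _ hall r => frob_triple S D hneat hσ 𝔫 (hall 0) (hall 1) r)
    hu hord hord2 g hg

/-- **The kernel theorem, concrete form.** -/
theorem ker_conc (hneat : 4 ∣ M ∨ 9 ∣ M) (hσ : A.IsFrobeniusAt σ q) {n : ℕ} (hn : 0 < n)
    (hqn : n.Coprime q) (f : S.Fˣ)
    (hf : Units.map (bc0 A (M * q * q) : S.F →* FN (M * q * q)) f ∈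
      kummerUnits Kbar (FN (M * q * q)) n)
    (hu : ∀ i, IsU (S.W i) (f : S.F)) (hg : ∀ i, ∃ h : S.F, Cg (S.W i) (h ^ n) (f : S.F)) :
    ∃ (a : K0 A) (Ψ : S.F), a ≠ 0 ∧ Ψ ≠ 0 ∧
      Phi2 D (M * q * q) (f : S.F) = algebraMap (K0 A) S.F a * Ψ ^ n * (f : S.F) ^ (q * q) := by
  choose g hg using hg
  have hord : ∀ P : Place (K0 A) S.F, (n : ℤ) ∣ P.ord (f : S.F) :=
    mem_kummerUnits0 A (M * q * q) n f hf
  have hord2 : ∀ P : Place (K0 A) S.F, (n : ℤ) ∣ P.ord (Phi2 D (M * q * q) (f : S.F)) := by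
    have h2 := mem_kummerUnits0 A (M * q * q) n
      (Units.map (phi D (M * q * q) : S.F →* S.F) (Units.map (phi D (M * q * q) : S.F →* S.F) f))
      (phi_kummer D _ n _ (phi_kummer D _ n f hf))
    intro P
    exact h2 P
  exact ker_conc_aux D S hneat hσ hn hqn f hord hord2 hu g hg

/-- **The toric part has `σ² = q²`.** -/
theorem deep_conc (hneat : 4 ∣ M ∨ 9 ∣ M) (hσ : A.IsFrobeniusAt σ q) {n : ℕ} (hn : 0 < n)
    (hqn : n.Coprime q) (f : S.Fˣ)
    (hf : Units.map (bc0 A (M * q * q) : S.F →* FN (M * q * q)) f ∈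
      kummerUnits Kbar (FN (M * q * q)) n)
    (hu : ∀ i, IsU (S.W i) (f : S.F)) (hg : ∀ i, ∃ h : S.F, Cg (S.W i) (h ^ n) (f : S.F)) :
    σ • σ • (KV.mk ⟨_, hf⟩ : KV Kbar (FN (M * q * q)) n) = (q * q) • KV.mk ⟨_, hf⟩ := by
  have D : Dec A q σ := dec_of_frob S hσ
  obtain ⟨a, Ψ, -, -, e⟩ := ker_conc D S hneat hσ hn hqn f hf hu hg
  have hf1 := phi_kummer D _ n f hf
  have hf2 := phi_kummer D _ n _ hf1
  have e1 : σ • (KV.mk ⟨_, hf⟩ : KV Kbar (FN (M * q * q)) n) = KV.mk ⟨_, hf1⟩ :=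
    (mk_phi D _ n f hf).symm
  have e2 : σ • (KV.mk ⟨_, hf1⟩ : KV Kbar (FN (M * q * q)) n) = KV.mk ⟨_, hf2⟩ :=
    (mk_phi D _ n _ hf1).symm
  rw [e1, e2]
  obtain ⟨w, hw⟩ : ∃ w : S.Fˣ, w = Units.map (phi D (M * q * q) : S.F →* S.F)
    (Units.map (phi D (M * q * q) : S.F →* S.F) f) * (f ^ (q * q))⁻¹ := ⟨_, rfl⟩
  have hwb : Units.map (bc0 A (M * q * q) : S.F →* FN (M * q * q)) w =
      Units.map (bc0 A (M * q * q) : S.F →* FN (M * q * q))
        (Units.map (phi D (M * q * q) : S.F →* S.F)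
          (Units.map (phi D (M * q * q) : S.F →* S.F) f)) *
      (Units.map (bc0 A (M * q * q) : S.F →* FN (M * q * q)) f ^ (q * q))⁻¹ := by
    rw [hw, map_mul, map_inv, map_pow]
  have hwk : Units.map (bc0 A (M * q * q) : S.F →* FN (M * q * q)) w ∈
      kummerUnits Kbar (FN (M * q * q)) n := by
    rw [hwb]
    exact mul_mem hf2 (inv_mem (pow_mem hf _))
  have hval : (w : S.F) = algebraMap (K0 A) S.F a * Ψ ^ n := by
    have hfQ : ((f : S.F)) ^ (q * q) ≠ 0 := pow_ne_zero _ f.ne_zero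
    have h1 : (w : S.F) = Phi2 D (M * q * q) (f : S.F) * ((f : S.F) ^ (q * q))⁻¹ := by
      rw [hw, Units.val_mul, Units.val_inv_eq_inv_val, Units.val_pow_eq_pow_val]
      rfl
    rw [h1, e]
    exact mul_inv_cancel_right₀ hfQ _
  have h0 := mk_bc0_eq_zero A (M * q * q) hn.ne' w hwk a Ψ hval
  have key : (KV.mk ⟨_, hwk⟩ : KV Kbar (FN (M * q * q)) n) =
      KV.mk ⟨_, hf2⟩ - (q * q) • KV.mk ⟨_, hf⟩ := by
    rw [← KV.mk_pow, sub_eq_add_neg, ← KV.mk_inv, ← KV.mk_mul]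
    congr 1
    exact Subtype.ext hwb
  rw [← sub_eq_zero, ← key, h0]

end Fermat.Agent.S43.Ctrl.Phi
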