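import Fermat.Agent.S43.Ctrl.Phi.Defs

/-!
# S43 / CTRL / PHI, file `Red`: the decomposition group and the three expansions   (helper37)

For `S : NormC.Setup A M q` and `σ` in the decomposition group of `A`:
`Red A (S.e i z) r → Red A (S.e i (phi D _ z)) (σ̄ r)`, `i = 0, 1, 2`, hence `(S.W i).comap (phi D _) = S.W i`.
-/

set_option autoImplicit false
set_option linter.unusedSectionVars false

noncomputable section

namespace Fermat.Agent.S43.Ctrl.Phi

open AlgebraicCurve ModularCurve Fermat.Agent.S24 Fermat.Agent.GAL Fermat.Agent.GAL.Gauss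
  Fermat.Agent.GAL.Desc Fermat.Agent.DR.Conc Fermat.Agent.S36.StepA Fermat.Agent.S36R
  Fermat.Agent.S36R.NormC

variable {A : ValuationSubring Kbar} {M q : ℕ} [NeZero M] [NeZero q] (S : Setup A M q)
  {σ : Kbar ≃ₐ[ℚ] Kbar} (D : Dec A q σ)

/-- the automorphism of the residue field induced by `σ`. -/
abbrev bar : IsLocalRing.ResidueField ↥A →+* IsLocalRing.ResidueField ↥A :=
  ((barAut A ⟨σ, D.mem⟩ : _ ≃+* _) : _ →+* _)

theorem coe_bc0_phi (N : ℕ) (z : FF (K0 A) N) :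
    ((bc0 A N (phi D N z) : FN N) : LaurentSeries Kbar) =
      coeffMap (σ : Kbar →+* Kbar) ((bc0 A N z : FN N) : LaurentSeries Kbar) := by
  rw [bc0_phi, gal, coe_arithmeticRingAut_apply]

theorem e0_phi (z : S.F) :
    S.e0 (phi D _ z) = coeffMap (σ : Kbar →+* Kbar) (S.e0 z) := by
  rw [S.e0_apply, S.e0_apply, coe_bc0_phi]

theorem e2_phi (z : S.F) :
    S.e2 (phi D _ z) = coeffMap (σ : Kbar →+* Kbar) (S.e2 z) := by
  rw [S.e2_apply, S.e2_apply, bc0_phi, S.hW2.galois S.hq S.hqM, gal, coe_arithmeticRingAut_apply]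

theorem exists_e1_phi : ∃ τ ∈ A.inertiaSubgroupIn ℚ, ∀ z : S.F,
    coeffMap (τ : Kbar →+* Kbar) (S.e1 (phi D _ z)) = coeffMap (σ : Kbar →+* Kbar) (S.e1 z) := by
  have hζ' : IsPrimitiveRoot (σ S.ζ) q := S.hζ.map_of_injective σ.injective
  obtain ⟨τ, hτ, e⟩ := exists_inertia_map_zeta A S.hq S.hA S.hζ hζ'
  refine ⟨τ, hτ, fun z => ?_⟩
  have h1 := isMid_conjMid S.hq S.hqM S.hι σ
  have h2 := isMid_conjMid S.hq S.hqM S.hι τ
  have h3 : conjMid S.ι σ = conjMid S.ι τ := by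
    refine IsMid.unique S.hq h1 ⟨h2.alpha, fun x => ?_⟩
    rw [h2.beta x]
    ext n
    rw [twist_coeff, twist_coeff, e]
  have h4 := RingHom.congr_fun h3 (bc0 A _ (phi D _ z))
  rw [conjMid_apply, ← bc0_phi D.inv, phi_inv_phi, (iFix_bc0 _ _).conjMid S.ι hτ] at h4
  exact h4.symm

variable {S} {z : S.F} {r : LaurentSeries (IsLocalRing.ResidueField ↥A)}

theorem red_e0_phi (h : Red A (S.e0 z) r) : Red A (S.e0 (phi D _ z)) (coeffMap (bar D) r) := by
  rw [e0_phi]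
  exact h.coeffMap ⟨σ, D.mem⟩

theorem red_e2_phi (h : Red A (S.e2 z) r) : Red A (S.e2 (phi D _ z)) (coeffMap (bar D) r) := by
  rw [e2_phi]
  exact h.coeffMap ⟨σ, D.mem⟩

theorem red_e1_phi (h : Red A (S.e1 z) r) : Red A (S.e1 (phi D _ z)) (coeffMap (bar D) r) := by
  obtain ⟨τ, hτ, e⟩ := exists_e1_phi S D
  have h1 : Red A (coeffMap (σ : Kbar →+* Kbar) (S.e1 z)) (coeffMap (bar D) r) :=
    h.coeffMap ⟨σ, D.mem⟩
  rw [← e z] at h1
  have h2 := red_inertia h1 (inv_mem hτ)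
  have h3 : coeffMap ((τ⁻¹ : Kbar ≃ₐ[ℚ] Kbar) : Kbar →+* Kbar)
      (coeffMap (τ : Kbar →+* Kbar) (S.e1 (phi D _ z))) = S.e1 (phi D _ z) := by
    ext n
    simp [coeffMap_coeff]
  rwa [h3] at h2

variable (S)

/-- **the vertical valuation rings are stable.** -/
theorem comap_W (i : Fin 3) : (S.W i).comap (phi D (M * q * q)) = S.W i := by
  ext z
  fin_cases i
  · show S.e0 (phi D _ z) ∈ gRing A ↔ S.e0 z ∈ gRing A
    constructor
    · intro h
      have := (red_e0_phi D.inv ⟨h, rfl⟩).1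
      rwa [phi_inv_phi] at this
    · intro h
      exact (red_e0_phi D ⟨h, rfl⟩).1
  · show S.e1 (phi D _ z) ∈ gRing A ↔ S.e1 z ∈ gRing A
    constructor
    · intro h
      have := (red_e1_phi D.inv ⟨h, rfl⟩).1
      rwa [phi_inv_phi] at this
    · intro h
      exact (red_e1_phi D ⟨h, rfl⟩).1
  · show S.e2 (phi D _ z) ∈ gRing A ↔ S.e2 z ∈ gRing A
    constructor
    · intro h
      have := (red_e2_phi D.inv ⟨h, rfl⟩).1
      rwa [phi_inv_phi] at this
    · intro h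
      exact (red_e2_phi D ⟨h, rfl⟩).1

/-! ### Frobenius elements -/

include S in
theorem dec_of_frob (hσ : A.IsFrobeniusAt σ q) : Dec A q σ :=
  ⟨S.hq, S.hA, hσ.mem_decompositionSubgroup⟩

theorem coeffMap_bar_of_frob [Fact q.Prime] [CharP (IsLocalRing.ResidueField ↥A) q]
    (hσ : A.IsFrobeniusAt σ q)
    (r : LaurentSeries (IsLocalRing.ResidueField ↥A)) :
    coeffMap (bar D) r = coeffMap (frobenius (IsLocalRing.ResidueField ↥A) q) r := by
  ext n
  exact hσ.smul_residue_eq _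

end Fermat.Agent.S43.Ctrl.Phi
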