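import Fermat.Agent.S43.Ctrl.Phi.Red

/-!
# S43 / CTRL / PHI, file `Chart`: the chart `R₀` and the triple points   (helper37)

* `phi_mem_RR` : `phi D N` stabilises the integral closure of `O0[j]`;
* `Phi2 D N = phi D N ∘ phi D N`;
* `frob_triple` : for a Frobenius element `σ`, `Phi2 r ≡ r ^ (q * q)` modulo every ideal of `R₀` containing the centres of `W 0` and `W 1`.
-/

set_option autoImplicit false
set_option linter.unusedSectionVars false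

noncomputable section

namespace Fermat.Agent.S43.Ctrl.Phi

open AlgebraicCurve ModularCurve Fermat.Agent.S24 Fermat.Agent.GAL Fermat.Agent.GAL.Gauss
  Fermat.Agent.GAL.Desc Fermat.Agent.DR.Conc Fermat.Agent.S36.StepA Fermat.Agent.S36R
  Fermat.Agent.S36R.NormC

variable {A : ValuationSubring Kbar} {M q : ℕ} [NeZero M] [NeZero q] (S : Setup A M q)
  {σ : Kbar ≃ₐ[ℚ] Kbar} (D : Dec A q σ)

theorem phi_mem_RR (N : ℕ) {z : FF (K0 A) N} (hz : z ∈ Bridge.RR (O0 A) (j0 A N)) :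
    phi D N z ∈ Bridge.RR (O0 A) (j0 A N) := by
  refine Bridge.map_mem_RR (phi D N) (fun a => ?_) ?_ hz
  · have h : phi D N (algebraMap (O0 A) (FF (K0 A) N) a) =
        algebraMap (O0 A) (FF (K0 A) N) ⟨resK0 D a, resK0_mem_O0 D a.2⟩ :=
      phi_algebraMap D N (a : K0 A)
    rw [h]
    exact Subalgebra.algebraMap_mem _ _
  · rw [phi_j0]
    exact Algebra.self_mem_adjoin_singleton _ _

/-- `φ²`. -/
def Phi2 (N : ℕ) : FF (K0 A) N →+* FF (K0 A) N := (phi D N).comp (phi D N)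

theorem Phi2_apply (N : ℕ) (z : FF (K0 A) N) : Phi2 D N z = phi D N (phi D N z) := rfl

theorem Phi2_mem_RR (N : ℕ) {z : FF (K0 A) N} (hz : z ∈ Bridge.RR (O0 A) (j0 A N)) :
    Phi2 D N z ∈ Bridge.RR (O0 A) (j0 A N) := phi_mem_RR D N (phi_mem_RR D N hz)

theorem comap_W_Phi2 (i : Fin 3) : (S.W i).comap (Phi2 D (M * q * q)) = S.W i := by
  rw [Phi2, ← ValuationSubring.comap_comap, comap_W, comap_W]

theorem phi_p0 (u : FF (K0 A) M) : phi D _ (S.p0 u) = S.p0 (phi D M u) :=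
  (phi_alpha D (M * q) q _).trans (congrArg _ (phi_alpha D M q u))

theorem phi_p2 (u : FF (K0 A) M) : phi D _ (S.p2 u) = S.p2 (phi D M u) :=
  (phi_beta D (M * q) q _).trans (congrArg _ (phi_beta D M q u))

theorem Phi2_p0 (u : FF (K0 A) M) : Phi2 D _ (S.p0 u) = S.p0 (Phi2 D M u) := by
  rw [Phi2_apply, Phi2_apply, phi_p0, phi_p0]

theorem red_bc0_phi {N : ℕ} {u : FF (K0 A) N} {r : LaurentSeries (IsLocalRing.ResidueField ↥A)}
    (h : Red A ((bc0 A N u : FN N) : LaurentSeries Kbar) r) :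
    Red A ((bc0 A N (phi D N u) : FN N) : LaurentSeries Kbar) (coeffMap (bar D) r) := by
  rw [coe_bc0_phi]
  exact h.coeffMap ⟨σ, D.mem⟩

/-- every element of `R₀` is congruent along `W 0` to an old function of level `M`. -/
theorem exists_old (hneat : 4 ∣ M ∨ 9 ∣ M) (x : S.R₀) :
    ∃ u : FF (K0 A) M, u ∈ Bridge.RR (O0 A) (j0 A M) ∧
      ((bc0 A M u : FN M) : LaurentSeries Kbar) ∈ gRing A ∧ Cg (S.W 0) x (S.p0 u) := by
  have hM := S.hM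
  have hg := S.goodRed hneat
  have h3 := AA.resOK S
  obtain ⟨hc, hρ⟩ := AA.rho_eq_of_red (AA.g0 h3) (AA.red_e0_cc (S := S))
  obtain ⟨hxW, hint⟩ := AA.isIntegral_rho hM (AA.old00 hM h3) hc
    (by rw [hρ]; exact AA.isIntegral_self_adjoin _) x x.2
  obtain ⟨u, hu, huO, huv⟩ := AA.exists_lift_K0 A S.hq S.hA M hM hg (AA.rho (AA.g0 h3) ⟨x, hxW⟩)
    (fun P hP => Igusa.mem_place_of_isIntegral P hP hint)
  obtain ⟨hu', hρ'⟩ := (AA.old00 hM h3).red u huO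
  refine ⟨u, hu, (mem_RM_O_iff A M hM _).1 huO, ?_⟩
  have h0 : AA.rho (AA.g0 h3) (⟨x, hxW⟩ - ⟨_, hu'⟩) = 0 := by
    rw [map_sub, hρ', huv, sub_self]
  exact (AA.rho_eq_zero_iff (AA.g0 h3) _).1 h0

theorem p0_mem_R₀ {u : FF (K0 A) M} (hu : u ∈ Bridge.RR (O0 A) (j0 A M)) : S.p0 u ∈ S.R₀ :=
  AA.old_mem_RS S.hM (AA.old00 S.hM (AA.resOK S))
    (by rw [RingHom.coe_coe, S.p0_j0]; exact AA.self_mem_RS _ _) hu

theorem p2_mem_R₀ {u : FF (K0 A) M} (hu : u ∈ Bridge.RR (O0 A) (j0 A M)) : S.p2 u ∈ S.R₀ :=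
  AA.old_mem_RS S.hM (AA.old22 S.hM (AA.resOK S)) AA.p2_j0_mem hu

/-- **Frobenius at the triple points.** -/
theorem frob_triple (hneat : 4 ∣ M ∨ 9 ∣ M) (hσ : A.IsFrobeniusAt σ q) (𝔫 : Ideal S.R₀)
    (h0 : Inj.Thru S.W 𝔫 0) (h1 : Inj.Thru S.W 𝔫 1) (r : S.R₀) :
    (⟨Phi2 D _ (r : S.F), Phi2_mem_RR D _ r.2⟩ : S.R₀) - r ^ (q * q) ∈ 𝔫 := by
  have : Fact q.Prime := ⟨S.hq⟩
  have : CharP (IsLocalRing.ResidueField ↥A) q := Hecke.charP_residueField A S.hq S.hA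
  obtain ⟨u, hu, huO, hcg⟩ := exists_old S hneat r
  have hv : Phi2 D M u ∈ Bridge.RR (O0 A) (j0 A M) := Phi2_mem_RR D M hu
  have hp0u := p0_mem_R₀ S hu
  have hp0v := p0_mem_R₀ S hv
  have hp2v := p2_mem_R₀ S hv
  obtain ⟨ru, hru⟩ : ∃ ru, Red A ((bc0 A M u : FN M) : LaurentSeries Kbar) ru := ⟨_, huO, rfl⟩
  have hrv : Red A ((bc0 A M (Phi2 D M u) : FN M) : LaurentSeries Kbar)
      (coeffMap (frobenius _ q) (coeffMap (frobenius _ q) ru)) := by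
    have := red_bc0_phi D (red_bc0_phi D hru)
    rwa [coeffMap_bar_of_frob D hσ, coeffMap_bar_of_frob D hσ] at this
  have c1 : Cg (S.W 0) (Phi2 D _ (r : S.F)) (S.p0 (Phi2 D M u)) := by
    have := (cg_comap (comap_W_Phi2 S D 0)).1 hcg
    rwa [Phi2_p0] at this
  have c2 : Cg (S.W 1) (S.p0 (Phi2 D M u)) (S.p2 (Phi2 D M u)) := by
    show Cg S.W11 _ _
    refine cg_of_red (φ := S.e1) (h := S.normable_e1)
      (r := coeffMap (frobenius _ q) (coeffMap (frobenius _ q) ru)) ?_ ?_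
    · rw [S.e1_p0]; exact hrv
    · rw [S.e1_p2]; exact red_twist S.hq S.hA hrv S.hζ.pow_eq_one _
  have c3 : Cg (S.W 0) (S.p2 (Phi2 D M u)) (S.p0 u ^ (q * q)) := by
    show Cg S.W20 _ _
    refine cg_of_red (φ := S.e0) (h := S.normable_e0) (r := (ru ^ q) ^ q) ?_ ?_
    · rw [S.e0_p2, Hecke.pow_char_eq_qExpand _ q (ru ^ q), Hecke.pow_char_eq_qExpand _ q ru,
        coeffMap_qExpand]
      exact (hrv.qExpand q).qExpand q
    · rw [map_pow, S.e0_p0, pow_mul]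
      exact (hru.pow q).pow q
  have hrW : (r : S.F) ∈ S.W 0 := hcg.mem_left (by
    show S.e0 (S.p0 u) ∈ gRing A
    rw [S.e0_p0]; exact huO)
  have c4 : Cg (S.W 0) (S.p0 u ^ (q * q)) ((r : S.F) ^ (q * q)) := hcg.symm.pow hrW _
  have m1 : (⟨Phi2 D _ (r : S.F), Phi2_mem_RR D _ r.2⟩ : S.R₀) - ⟨_, hp0v⟩ ∈ 𝔫 := h0 _ c1
  have m2 : (⟨_, hp0v⟩ : S.R₀) - ⟨_, hp2v⟩ ∈ 𝔫 := h1 _ c2
  have m3 : (⟨_, hp2v⟩ : S.R₀) - r ^ (q * q) ∈ 𝔫 := h0 _ (c3.trans c4)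
  have := 𝔫.add_mem (𝔫.add_mem m1 m2) m3
  convert this using 1
  ring

end Fermat.Agent.S43.Ctrl.Phi
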