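import Fermat.Agent.S36R.RestProof

/-!
# S43 / CTRL / PHI, file `Defs`: the action of the decomposition group on `FF (K0 A) N`   (helper37)

`A` a valuation subring of `Kbar` over the prime `q`, `σ` in the decomposition group of `A`.
* `resK0 D : K0 A →+* K0 A` the restriction of `σ`;
* `phi D N : FF (K0 A) N →+* FF (K0 A) N` the coefficientwise action;
* `bc0_phi : bc0 A N (phi D N z) = gal N σ (bc0 A N z)`;
* compatibility with constants, `j`, `α`, `β`.
-/

set_option autoImplicit false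
set_option linter.unusedSectionVars false

noncomputable section

namespace Fermat.Agent.S43.Ctrl.Phi

open AlgebraicCurve ModularCurve Fermat.Agent.S24 Fermat.Agent.GAL Fermat.Agent.GAL.Gauss
  Fermat.Agent.GAL.Desc Fermat.Agent.DR.Conc Fermat.Agent.S36.StepA Fermat.Agent.S36R
  Fermat.Agent.S36R.NormC

/-- `σ` lies in the decomposition group of `A`, which lies over the prime `q`. -/
structure Dec (A : ValuationSubring Kbar) (q : ℕ) (σ : Kbar ≃ₐ[ℚ] Kbar) : Prop where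
  hq : q.Prime
  hA : A.LiesOverPrime q
  mem : σ ∈ A.decompositionSubgroup ℚ

variable {A : ValuationSubring Kbar} {q : ℕ} {σ : Kbar ≃ₐ[ℚ] Kbar} (D : Dec A q σ)

include D in
theorem Dec.inv : Dec A q σ⁻¹ := ⟨D.hq, D.hA, inv_mem D.mem⟩

include D in
theorem Dec.map_mem_K0 {x : Kbar} (hx : x ∈ K0 A) : σ x ∈ K0 A := by
  rw [mem_K0] at hx ⊢
  intro τ hτ
  have h1 : σ⁻¹ * τ * σ⁻¹⁻¹ ∈ A.inertiaSubgroupIn ℚ :=
    PT.Local.ine_normal ⟨A, q, D.hq, D.hA⟩ ((A.decompositionSubgroup ℚ).inv_mem D.mem) hτ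
  rw [inv_inv] at h1
  have h2 := congrArg σ (hx _ h1)
  simpa [AlgEquiv.mul_apply] using h2

include D in
theorem Dec.map_mem {x : Kbar} (hx : x ∈ A) : σ x ∈ A := Galois_mem A ⟨σ, D.mem⟩ x hx

/-- the restriction of `σ` to `K0 A`. -/
def resK0 : K0 A →+* K0 A :=
  ((σ : Kbar →+* Kbar).comp (algebraMap (K0 A) Kbar)).codRestrict (K0 A)
    fun x => D.map_mem_K0 x.2

@[simp] theorem coe_resK0 (x : K0 A) : ((resK0 D x : K0 A) : Kbar) = σ (x : Kbar) := rfl

theorem resK0_mem_O0 {x : K0 A} (hx : x ∈ O0 A) : resK0 D x ∈ O0 A := D.map_mem hx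

/-- the coefficientwise action of `σ` on `FF (K0 A) N`. -/
def phi (N : ℕ) : FF (K0 A) N →+* FF (K0 A) N := bc (resK0 D) (modularFunctionFieldFull N)

theorem coe_phi (N : ℕ) (z : FF (K0 A) N) :
    ((phi D N z : FF (K0 A) N) : LaurentSeries (K0 A)) =
      coeffMap (resK0 D) (z : LaurentSeries (K0 A)) := rfl

theorem bc0_phi (N : ℕ) (z : FF (K0 A) N) : bc0 A N (phi D N z) = gal N σ (bc0 A N z) := by
  apply Subtype.ext
  rw [coe_bc0, coe_phi, gal, coe_arithmeticRingAut_apply, coe_bc0]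
  ext n
  rfl

theorem phi_inv_phi (N : ℕ) (z : FF (K0 A) N) : phi D.inv N (phi D N z) = z := by
  apply Subtype.ext
  rw [coe_phi, coe_phi]
  ext n
  simp [coeffMap_coeff]

theorem phi_phi_inv (N : ℕ) (z : FF (K0 A) N) : phi D N (phi D.inv N z) = z := by
  apply Subtype.ext
  rw [coe_phi, coe_phi]
  ext n
  simp [coeffMap_coeff]

theorem phi_algebraMap (N : ℕ) (a : K0 A) :
    phi D N (algebraMap (K0 A) (FF (K0 A) N) a) = algebraMap (K0 A) (FF (K0 A) N) (resK0 D a) :=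
  bc_algebraMap _ _ a

theorem phi_j0 (N : ℕ) : phi D N (j0 A N) = j0 A N := by
  apply Subtype.ext
  rw [coe_phi]
  exact coeffMap_coeffEmb_hom (resK0 D) jq

theorem phi_alpha (N d : ℕ) [NeZero N] [NeZero d] (x : FF (K0 A) N) :
    phi D (N * d) (heckeAlphaBar (K0 A) N d x) = heckeAlphaBar (K0 A) N d (phi D N x) := by
  apply Subtype.ext
  rw [coe_phi, coe_heckeAlphaBar, coe_heckeAlphaBar, coe_phi]

theorem phi_beta (N d : ℕ) [NeZero N] [NeZero d] (x : FF (K0 A) N) :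
    phi D (N * d) (heckeBetaBar (K0 A) N d x) = heckeBetaBar (K0 A) N d (phi D N x) := by
  apply Subtype.ext
  rw [coe_phi, coe_heckeBetaBar, coe_heckeBetaBar, coe_phi, coeffMap_qExpand]

end Fermat.Agent.S43.Ctrl.Phi
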