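import Fermat.Agent.S36R.K0.Kummer
import Fermat.Agent.GAL.KVGalois

/-!
# S43 / CTRL / Phi, file `Frob0`: the action of the decomposition group on `FF (K0 A) N`

`A` a valuation subring of `Kbar`, `φ` in its decomposition group.
* `res0 A φ : K0 A ≃ₐ[ℚ] K0 A` : the restriction of `φ` (the identity if `φ` is not in the decomposition group);
* `frob0 A N φ : FF (K0 A) N ≃+* FF (K0 A) N := arithmeticRingAut _ (res0 A φ)` (coefficientwise action);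
* `bc0_frob0` : `bc0 (frob0 f) = arithmeticRingAut _ φ (bc0 f)`;
* commutation with `heckeAlphaBar`, `heckeBetaBar`, `heckeNorm` over `K0 A`;
* Kummer units: `frob0_mem_kummerUnits0`, `bc0_frob0_mem_kummerUnits`, `mk_bc0_frob0`.
-/

set_option autoImplicit false

noncomputable section

namespace Fermat.Agent.S43.Ctrl

open AlgebraicCurve ModularCurve Fermat.Agent.GAL Fermat.Agent.GAL.Desc Fermat.Agent.S24
  Fermat.Agent.S36R

open scoped Pointwise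

variable (A : ValuationSubring Kbar)

variable {A} in
theorem conj_mem_inertia {φ τ : Kbar ≃ₐ[ℚ] Kbar} (hφ : φ ∈ A.decompositionSubgroup ℚ)
    (hτ : τ ∈ A.inertiaSubgroupIn ℚ) : φ⁻¹ * τ * φ ∈ A.inertiaSubgroupIn ℚ := by
  obtain ⟨t, ht, rfl⟩ := hτ
  refine ⟨(⟨φ, hφ⟩ : A.decompositionSubgroup ℚ)⁻¹ * t * ⟨φ, hφ⟩, ?_, rfl⟩
  have hn : (A.inertiaSubgroup ℚ).Normal := MonoidHom.normal_ker _
  have h := hn.conj_mem t ht (⟨φ, hφ⟩ : A.decompositionSubgroup ℚ)⁻¹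
  simpa using h

variable {A} in
theorem map_mem_K0 {φ : Kbar ≃ₐ[ℚ] Kbar} (hφ : φ ∈ A.decompositionSubgroup ℚ) {x : Kbar}
    (hx : x ∈ K0 A) : φ x ∈ K0 A := by
  rw [mem_K0] at hx ⊢
  intro τ hτ
  have h := hx _ (conj_mem_inertia hφ hτ)
  have h2 : φ ((φ⁻¹ * τ * φ) x) = τ (φ x) := by
    show φ (φ⁻¹ (τ (φ x))) = τ (φ x)
    exact φ.apply_symm_apply _
  rw [← h2, h]

variable {A} in
theorem map_mem_of_mem_decomposition {φ : Kbar ≃ₐ[ℚ] Kbar} (hφ : φ ∈ A.decompositionSubgroup ℚ)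
    {y : Kbar} (hy : y ∈ A) : φ y ∈ A := by
  have h : φ • A = A := hφ
  have h2 : φ y ∈ φ • A := ⟨_, hy, rfl⟩
  rwa [h] at h2

/-- the restriction of an element of the decomposition group to `K0 A`. -/
def res0' (φ : Kbar ≃ₐ[ℚ] Kbar) (hφ : φ ∈ A.decompositionSubgroup ℚ) : K0 A ≃ₐ[ℚ] K0 A where
  toFun x := ⟨φ x, map_mem_K0 hφ x.2⟩
  invFun x := ⟨φ⁻¹ x, map_mem_K0 (inv_mem hφ) x.2⟩
  left_inv _ := Subtype.ext (φ.symm_apply_apply _)
  right_inv _ := Subtype.ext (φ.apply_symm_apply _)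
  map_mul' _ _ := Subtype.ext (map_mul φ _ _)
  map_add' _ _ := Subtype.ext (map_add φ _ _)
  commutes' r := Subtype.ext (φ.commutes r)

open Classical in
/-- the restriction of `φ` to `K0 A` (junk value `1` outside the decomposition group). -/
def res0 (φ : Kbar ≃ₐ[ℚ] Kbar) : K0 A ≃ₐ[ℚ] K0 A :=
  if hφ : φ ∈ A.decompositionSubgroup ℚ then res0' A φ hφ else AlgEquiv.refl

variable {A}

theorem coe_res0 {φ : Kbar ≃ₐ[ℚ] Kbar} (hφ : φ ∈ A.decompositionSubgroup ℚ) (x : K0 A) :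
    ((res0 A φ x : K0 A) : Kbar) = φ x := by
  rw [res0, dif_pos hφ]
  rfl

theorem res0_mul {φ ψ : Kbar ≃ₐ[ℚ] Kbar} (hφ : φ ∈ A.decompositionSubgroup ℚ)
    (hψ : ψ ∈ A.decompositionSubgroup ℚ) : res0 A (φ * ψ) = res0 A φ * res0 A ψ := by
  ext x
  show ((res0 A (φ * ψ) x : K0 A) : Kbar) = ((res0 A φ (res0 A ψ x) : K0 A) : Kbar)
  rw [coe_res0 (mul_mem hφ hψ), coe_res0 hφ, coe_res0 hψ]
  rfl

theorem res0_one : res0 A 1 = 1 := by
  ext x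
  rw [coe_res0 (one_mem _)]
  rfl

theorem res0_inv {φ : Kbar ≃ₐ[ℚ] Kbar} (hφ : φ ∈ A.decompositionSubgroup ℚ) :
    res0 A φ⁻¹ = (res0 A φ)⁻¹ := by
  rw [eq_inv_iff_mul_eq_one, ← res0_mul (inv_mem hφ) hφ, inv_mul_cancel, res0_one]

/-- `res0 A φ` is trivial for `φ` in the inertia group. -/
theorem res0_of_mem_inertia {φ : Kbar ≃ₐ[ℚ] Kbar} (hφ : φ ∈ A.inertiaSubgroupIn ℚ) :
    res0 A φ = 1 := by
  have hD : φ ∈ A.decompositionSubgroup ℚ := by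
    obtain ⟨t, -, rfl⟩ := hφ
    exact t.2
  ext x
  rw [coe_res0 hD]
  exact mem_K0.1 x.2 φ hφ

theorem res0_mem_O0 {φ : Kbar ≃ₐ[ℚ] Kbar} (hφ : φ ∈ A.decompositionSubgroup ℚ) {x : K0 A}
    (hx : x ∈ O0 A) : res0 A φ x ∈ O0 A := by
  rw [mem_O0] at hx ⊢
  rw [coe_res0 hφ]
  exact map_mem_of_mem_decomposition hφ hx

variable (A)

/-- **the action of `φ` on `FF (K0 A) N`** (coefficientwise). -/
def frob0 (N : ℕ) (φ : Kbar ≃ₐ[ℚ] Kbar) : FF (K0 A) N ≃+* FF (K0 A) N :=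
  arithmeticRingAut (modularFunctionFieldFull N) (res0 A φ)

variable {A}

theorem frob0_def (N : ℕ) (φ : Kbar ≃ₐ[ℚ] Kbar) :
    frob0 A N φ = arithmeticRingAut (modularFunctionFieldFull N) (res0 A φ) := rfl

theorem coe_frob0 (N : ℕ) (φ : Kbar ≃ₐ[ℚ] Kbar) (f : FF (K0 A) N) :
    ((frob0 A N φ f : FF (K0 A) N) : LaurentSeries (K0 A))
      = coeffMap (res0 A φ : K0 A →+* K0 A) (f : LaurentSeries (K0 A)) := rfl

/-- **the defining property.** -/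
theorem bc0_frob0 (N : ℕ) {φ : Kbar ≃ₐ[ℚ] Kbar} (hφ : φ ∈ A.decompositionSubgroup ℚ)
    (f : FF (K0 A) N) :
    bc0 A N (frob0 A N φ f) = arithmeticRingAut (modularFunctionFieldFull N) φ (bc0 A N f) := by
  apply Subtype.ext
  rw [coe_bc0, coe_frob0, coe_arithmeticRingAut_apply, coe_bc0]
  ext n
  simp only [coeffMap_coeff]
  exact coe_res0 hφ _

theorem bc0_frob0' (N : ℕ) {φ : Kbar ≃ₐ[ℚ] Kbar} (hφ : φ ∈ A.decompositionSubgroup ℚ)
    (f : FF (K0 A) N) :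
    bc0 A N (frob0 A N φ f) = arithmeticGalois (modularFunctionFieldFull N) φ • bc0 A N f :=
  bc0_frob0 N hφ f

/-- the `q`-expansion of `frob0 f`. -/
theorem coe_bc0_frob0 (N : ℕ) {φ : Kbar ≃ₐ[ℚ] Kbar} (hφ : φ ∈ A.decompositionSubgroup ℚ)
    (f : FF (K0 A) N) :
    ((bc0 A N (frob0 A N φ f) : FF Kbar N) : LaurentSeries Kbar)
      = coeffMap (φ : Kbar →+* Kbar) ((bc0 A N f : FF Kbar N) : LaurentSeries Kbar) := by
  rw [bc0_frob0 N hφ]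
  rfl

theorem frob0_algebraMap (N : ℕ) (φ : Kbar ≃ₐ[ℚ] Kbar) (a : K0 A) :
    frob0 A N φ (algebraMap (K0 A) (FF (K0 A) N) a) = algebraMap (K0 A) (FF (K0 A) N) (res0 A φ a) :=
  arithmeticRingAut_algebraMap _ _ a

theorem frob0_mul (N : ℕ) {φ ψ : Kbar ≃ₐ[ℚ] Kbar} (hφ : φ ∈ A.decompositionSubgroup ℚ)
    (hψ : ψ ∈ A.decompositionSubgroup ℚ) (f : FF (K0 A) N) :
    frob0 A N (φ * ψ) f = frob0 A N φ (frob0 A N ψ f) := by
  apply bc0_injective A N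
  rw [bc0_frob0 N (mul_mem hφ hψ), bc0_frob0 N hφ, bc0_frob0 N hψ]
  exact congrArg (fun g : SemilinearAut Kbar (FF Kbar N) => g • bc0 A N f)
    (map_mul (arithmeticGalois (modularFunctionFieldFull N)) φ ψ)

theorem frob0_inv_frob0 (N : ℕ) {φ : Kbar ≃ₐ[ℚ] Kbar} (hφ : φ ∈ A.decompositionSubgroup ℚ)
    (f : FF (K0 A) N) : frob0 A N φ⁻¹ (frob0 A N φ f) = f := by
  apply Subtype.ext
  rw [← frob0_mul N (inv_mem hφ) hφ, inv_mul_cancel, coe_frob0, res0_one]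
  exact coeffMap_id _

theorem frob0_frob0_inv (N : ℕ) {φ : Kbar ≃ₐ[ℚ] Kbar} (hφ : φ ∈ A.decompositionSubgroup ℚ)
    (f : FF (K0 A) N) : frob0 A N φ (frob0 A N φ⁻¹ f) = f := by
  apply Subtype.ext
  rw [← frob0_mul N hφ (inv_mem hφ), mul_inv_cancel, coe_frob0, res0_one]
  exact coeffMap_id _

/-! ### commutation with the degeneracy maps and the Hecke norm -/

section Hecke

variable (M ℓ : ℕ) [NeZero M] [NeZero ℓ]

theorem heckeAlphaBar_frob0 (φ : Kbar ≃ₐ[ℚ] Kbar) (f : FF (K0 A) M) :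
    heckeAlphaBar (K0 A) M ℓ (frob0 A M φ f) = frob0 A (M * ℓ) φ (heckeAlphaBar (K0 A) M ℓ f) :=
  heckeAlphaBar_arithmeticRingAut M ℓ (res0 A φ) f

theorem heckeBetaBar_frob0 (φ : Kbar ≃ₐ[ℚ] Kbar) (f : FF (K0 A) M) :
    heckeBetaBar (K0 A) M ℓ (frob0 A M φ f) = frob0 A (M * ℓ) φ (heckeBetaBar (K0 A) M ℓ f) :=
  heckeBetaBar_arithmeticRingAut M ℓ (res0 A φ) f

theorem heckeNorm_frob0 (φ : Kbar ≃ₐ[ℚ] Kbar) (f : FF (K0 A) M) :
    heckeNorm (K0 A) M ℓ (frob0 A M φ f) = frob0 A M φ (heckeNorm (K0 A) M ℓ f) :=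
  heckeNorm_arithmeticRingAut M ℓ (res0 A φ) f

end Hecke

/-! ### Kummer units -/

section Kummer

variable (N : ℕ) (m : ℕ)

/-- `frob0` on units. -/
def frob0U (A : ValuationSubring Kbar) (N : ℕ) (φ : Kbar ≃ₐ[ℚ] Kbar) :
    (FF (K0 A) N)ˣ →* (FF (K0 A) N)ˣ :=
  Units.map ((frob0 A N φ : FF (K0 A) N ≃+* FF (K0 A) N) : FF (K0 A) N →* FF (K0 A) N)

theorem coe_frob0U (φ : Kbar ≃ₐ[ℚ] Kbar) (f : (FF (K0 A) N)ˣ) :
    ((frob0U A N φ f : (FF (K0 A) N)ˣ) : FF (K0 A) N) = frob0 A N φ (f : FF (K0 A) N) := rfl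

/-- `frob0` preserves the Kummer units over `K0 A`. -/
theorem frob0_mem_kummerUnits0 (φ : Kbar ≃ₐ[ℚ] Kbar) (f : (FF (K0 A) N)ˣ)
    (hf : f ∈ kummerUnits (K0 A) (FF (K0 A) N) m) :
    frob0U A N φ f ∈ kummerUnits (K0 A) (FF (K0 A) N) m :=
  semilinearUnits_mem (arithmeticGalois (modularFunctionFieldFull N) (res0 A φ)) f hf

theorem map_bc0_frob0U {φ : Kbar ≃ₐ[ℚ] Kbar} (hφ : φ ∈ A.decompositionSubgroup ℚ)
    (f : (FF (K0 A) N)ˣ) :
    Units.map (bc0 A N : FF (K0 A) N →* FF Kbar N) (frob0U A N φ f)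
      = semilinearUnits (arithmeticGalois (modularFunctionFieldFull N) φ)
        (Units.map (bc0 A N : FF (K0 A) N →* FF Kbar N) f) :=
  Units.ext (bc0_frob0 N hφ _)

/-- `frob0` preserves the functions over `K0 A` which are Kummer units over `Kbar`. -/
theorem bc0_frob0_mem_kummerUnits {φ : Kbar ≃ₐ[ℚ] Kbar} (hφ : φ ∈ A.decompositionSubgroup ℚ)
    (f : (FF (K0 A) N)ˣ)
    (hf : Units.map (bc0 A N : FF (K0 A) N →* FF Kbar N) f ∈ kummerUnits Kbar (FF Kbar N) m) :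
    Units.map (bc0 A N : FF (K0 A) N →* FF Kbar N) (frob0U A N φ f)
      ∈ kummerUnits Kbar (FF Kbar N) m := by
  rw [map_bc0_frob0U N hφ]
  exact semilinearUnits_mem _ _ hf

/-- **the class of `frob0 f` is `φ •` the class of `f`.** -/
theorem mk_bc0_frob0 {φ : Kbar ≃ₐ[ℚ] Kbar} (hφ : φ ∈ A.decompositionSubgroup ℚ)
    (f : (FF (K0 A) N)ˣ)
    (hf : Units.map (bc0 A N : FF (K0 A) N →* FF Kbar N) f ∈ kummerUnits Kbar (FF Kbar N) m) :
    KV.mk (⟨_, bc0_frob0_mem_kummerUnits N m hφ f hf⟩ : kummerUnits Kbar (FF Kbar N) m)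
      = φ • KV.mk (⟨_, hf⟩ : kummerUnits Kbar (FF Kbar N) m) := by
  rw [KV.galois_smul_mk]
  congr 1
  exact Subtype.ext (map_bc0_frob0U N hφ f)

end Kummer

end Fermat.Agent.S43.Ctrl
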